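import Mathlib
import Fermat.Prelude.Def_FLTPrelim_FreyPackage

set_option autoImplicit false

namespace Fermat.Agent.Glue

/-- Root glue: Fermat's Last Theorem from (S02) "a counterexample for a prime `p ≥ 5` gives a
Frey package" and (S03) "there is no Frey package", using Mathlib's `n = 3`, `n = 4` and
reduction to odd primes. -/
theorem root_of_frey
    (h2 : ∀ (a b c : ℤ), a ≠ 0 → b ≠ 0 → c ≠ 0 → ∀ (p : ℕ), p.Prime → 5 ≤ p →
      a ^ p + b ^ p = c ^ p → Nonempty FreyPackage)
    (h3 : FreyPackage → False)
    (n : ℕ) (hn : 3 ≤ n) (a b c : ℕ) (ha : 0 < a) (hb : 0 < b) (hc : 0 < c) :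
    a ^ n + b ^ n ≠ c ^ n := by
  have key : FermatLastTheorem := by
    apply FermatLastTheorem.of_odd_primes
    intro p pp hodd
    have h2' : p ≠ 2 := by
      rintro rfl
      exact absurd hodd (by decide)
    have h3le : 3 ≤ p := by
      have := pp.two_le
      omega
    rcases Nat.lt_or_ge p 5 with hlt | hge
    · -- p = 3 (p = 4 is not prime)
      have hp3 : p = 3 := by
        rcases (by omega : p = 3 ∨ p = 4) with h | h
        · exact h
        · subst h
          exact absurd pp (by decide)
      subst hp3
      exact fermatLastTheoremThree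
    · rw [fermatLastTheoremFor_iff_int]
      intro x y z hx hy hz H
      obtain ⟨P⟩ := h2 x y z hx hy hz p pp hge H
      exact h3 P
  exact key n hn a b c ha.ne' hb.ne' hc.ne'

end Fermat.Agent.Glue
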